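import Mathlib
import Fermat.Agent.LT.T2.Spec

/-!
# Row LT, tower T2, leaf T2.04 (`GPS ⇒ HSBound`, `GPSKill ⇒ HSKill`) — helper510, OFF-MAIN

`leaf04_h510 : T2.Leaf04 K`, verbatim against `LT/T2/Spec.lean` v3 (helper130, sha256 b934629a).

Proof (Bessel at a point, then integrate): for an orthonormal family `φ₁, …, φ_n` of cusp
(resp. automorphic) functions and a point `x`, put `a_i = (R(f) φ_i)(x)` and
`ψ = ∑ conj(a_i) φ_i`.  Then `ψ` is a cusp (resp. automorphic) function,
`(R(f) ψ)(x) = ∑ |a_i|²` and `‖ψ‖² = ∑ |a_i|²`, so the estimate for `ψ` gives `∑ |a_i|² ≤ C²`.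
Integrating over the fundamental domain `D` of finite measure: `∑ ‖R(f) φ_i‖² ≤ C² μ(D)`.

Used from `T1.T1Out`: `LocCompC` (`GL₂(𝔸_K)` locally compact, Hausdorff, second countable:
`R(f) φ` is continuous) and `AddFundDomC` (fundamental domains of `K` in `𝔸_K` have finite
measure: the constant term is linear on bounded continuous functions).
-/

set_option autoImplicit false
set_option linter.style.haveILetI false

open IsDedekindDomain NumberField MeasureTheory AutomorphicForm
open Fermat.Agent.LT.H556.A0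

noncomputable section

namespace Fermat.Agent.LT.T2.H510

open Fermat.Agent.LT

attribute [local instance] Fermat.Agent.LT.T2.borelG

variable {K : Type} [Field K] [NumberField K]

/-! ## 1. Bessel at a point -/

/-- If the combination with the conjugate coefficients is bounded by `C` times its `ℓ²` norm,
then the sum of the squares is at most `C²`. -/
theorem sum_sq_le_h510 {n : ℕ} (a : Fin n → ℂ) (C : ℝ) (hC : 0 ≤ C)
    (h : ‖∑ i, (starRingEnd ℂ) (a i) * a i‖ ≤ C * Real.sqrt (∑ i, ‖a i‖ ^ 2)) :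
    ∑ i, ‖a i‖ ^ 2 ≤ C ^ 2 := by
  set S := ∑ i, ‖a i‖ ^ 2 with hS
  have hS0 : 0 ≤ S := Finset.sum_nonneg fun i _ => by positivity
  have h1 : (∑ i, (starRingEnd ℂ) (a i) * a i) = ((S : ℝ) : ℂ) := by
    rw [hS]
    push_cast
    refine Finset.sum_congr rfl fun i _ => ?_
    rw [mul_comm, Complex.mul_conj, Complex.normSq_eq_norm_sq]
    push_cast
    rfl
  rw [h1, Complex.norm_real, Real.norm_of_nonneg hS0] at h
  by_cases hz : S = 0
  · rw [hz]; positivity
  · have hpos : 0 < S := lt_of_le_of_ne hS0 (Ne.symm hz)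
    have hsq : Real.sqrt S * Real.sqrt S = S := Real.mul_self_sqrt hS0
    have hsp : 0 < Real.sqrt S := Real.sqrt_pos.mpr hpos
    have hle : Real.sqrt S ≤ C := by
      refine le_of_not_gt fun hlt => ?_
      have : C * Real.sqrt S < Real.sqrt S * Real.sqrt S := by nlinarith
      linarith
    calc S = Real.sqrt S * Real.sqrt S := hsq.symm
      _ ≤ C * C := by nlinarith
      _ = C ^ 2 := by ring

/-! ## 2. Topology and measurability on `GL₂(𝔸_K)` -/

/-- `GL₂(𝔸_K)` with its Borel `σ`-algebra is a Borel space. -/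
theorem borelSpaceG_h510 : BorelSpace (G K) := ⟨rfl⟩

attribute [local instance] borelSpaceG_h510

/-- The slab is a Borel set. -/
theorem measurableSet_slab_h510 (hN : T1.AdNormC K) : MeasurableSet (T1.slab K) := by
  have hc : Continuous fun g : G K =>
      T1.adNorm K ((Matrix.GeneralLinearGroup.det g : (Adl K)ˣ) : Adl K) :=
    hN.2.2.2.comp Matrix.GeneralLinearGroup.continuous_det
  have hs : T1.slab K = (fun g : G K =>
      T1.adNorm K ((Matrix.GeneralLinearGroup.det g : (Adl K)ˣ) : Adl K)) ⁻¹' Set.Ico 1 2 := by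
    ext g
    exact Iff.rfl
  rw [hs]
  exact hc.measurable measurableSet_Ico

/-- A number field is countable. -/
theorem countable_field_h510 (K : Type) [Field K] [NumberField K] : Countable K :=
  Finsupp.Countable.of_moduleFinite (R := ℚ) (M := K)

/-- The principal adeles are countable. -/
theorem countable_princ_h510 (K : Type) [Field K] [NumberField K] : Countable (T1.princ K) := by
  have : Countable K := countable_field_h510 K
  have hs : Function.Surjective ((algebraMap K (Adl K)).toAddMonoidHom.rangeRestrict) :=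
    AddMonoidHom.rangeRestrict_surjective _
  exact hs.countable

/-- A family of upper unipotent elements `n(x) = [[1, x], [0, 1]]` is continuous in `x`. -/
theorem continuous_unip_h510 (u : Adl K → G K)
    (hu : ∀ x : Adl K, (u x : Matrix (Fin 2) (Fin 2) (Adl K)) = !![1, x; 0, 1]) :
    Continuous u := by
  rw [Units.continuous_iff]
  constructor
  · have h : (Units.val ∘ u) = fun x : Adl K => !![1, x; 0, 1] := funext hu
    rw [h]
    refine continuous_matrix fun i j => ?_
    fin_cases i <;> fin_cases j <;> simp <;> fun_prop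
  · have h : (fun x => ((u x)⁻¹ : G K).val) = fun x : Adl K => !![1, -x; 0, 1] := by
      funext x
      have h1 : (u x : Matrix (Fin 2) (Fin 2) (Adl K)) * !![1, -x; 0, 1] = 1 := by
        rw [hu x]
        ext i j
        fin_cases i <;> fin_cases j <;> simp [Matrix.mul_apply, Fin.sum_univ_two]
      exact Units.inv_eq_of_mul_eq_one_right h1
    rw [h]
    refine continuous_matrix fun i j => ?_
    fin_cases i <;> fin_cases j <;> simp <;> fun_prop

/-! ## 3. Linear combinations of cusp functions -/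

/-- The constant term is linear on bounded continuous functions (the fundamental domains of `K`
in `𝔸_K` have finite measure). -/
theorem isCuspidalFn_sum_h510 (hT1 : T1.T1Out K) {n : ℕ} (c : Fin n → ℂ)
    (φ : Fin n → G K → ℂ) (hcont : ∀ i, Continuous (φ i))
    (hbdd : ∀ i, ∃ C : ℝ, ∀ g : G K, ‖φ i g‖ ≤ C) (hcusp : ∀ i, IsCuspidalFn (φ i)) :
    IsCuspidalFn (fun g => ∑ i, c i * φ i g) := by
  letI : MeasurableSpace (Adl K) := borel (Adl K)
  haveI : BorelSpace (Adl K) := ⟨rfl⟩
  intro μ hμ D hD u hu g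
  haveI := hμ
  obtain ⟨D₀, -, hD₀, -, -, hfin⟩ := hT1.addFundDom μ hμ
  haveI : Countable (T1.princ K) := countable_princ_h510 K
  have hDfin : μ D ≠ ⊤ := by
    have h : μ D = μ D₀ := IsAddFundamentalDomain.measure_eq (G := T1.princ K) hD hD₀
    rw [h]
    exact hfin.ne
  have hucont : Continuous fun x => u x * g :=
    (continuous_unip_h510 u hu).mul continuous_const
  have hint : ∀ i, IntegrableOn (fun x => φ i (u x * g)) D μ := by
    intro i
    obtain ⟨C, hC⟩ := hbdd i
    exact Measure.integrableOn_of_bounded hDfin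
      ((hcont i).comp hucont).aestronglyMeasurable (Filter.Eventually.of_forall fun x => hC _)
  calc ∫ x in D, ∑ i, c i * φ i (u x * g) ∂μ
      = ∑ i, ∫ x in D, c i * φ i (u x * g) ∂μ :=
        integral_finsetSum _ fun i _ => (hint i).const_mul (c i)
    _ = ∑ i, c i * ∫ x in D, φ i (u x * g) ∂μ := by
        refine Finset.sum_congr rfl fun i _ => ?_
        exact integral_const_mul (c i) _
    _ = 0 := by
        refine Finset.sum_eq_zero fun i _ => ?_
        rw [hcusp i μ hμ D hD u hu g, mul_zero]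

/-- A finite linear combination of cusp functions is a cusp function. -/
theorem isCuspFn_sum_h510 (hT1 : T1.T1Out K) (𝔫 : Ideal (𝓞 K)) {n : ℕ} (c : Fin n → ℂ)
    (φ : Fin n → G K → ℂ) (hφ : ∀ i, T2.IsCuspFn 𝔫 (φ i)) :
    T2.IsCuspFn 𝔫 (fun g => ∑ i, c i * φ i g) where
  cont := continuous_finsetSum _ fun i _ => continuous_const.mul (hφ i).cont
  bdd := by
    choose C hC using fun i => (hφ i).bdd
    refine ⟨∑ i, ‖c i‖ * C i, fun g => ?_⟩
    calc ‖∑ i, c i * φ i g‖ ≤ ∑ i, ‖c i * φ i g‖ := norm_sum_le _ _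
      _ ≤ ∑ i, ‖c i‖ * C i := Finset.sum_le_sum fun i _ => by
          rw [norm_mul]
          exact mul_le_mul_of_nonneg_left (hC i g) (norm_nonneg _)
  left_inv := fun γ g =>
    Finset.sum_congr rfl fun i _ => by rw [(hφ i).left_inv γ g]
  level_inv := fun u hu g =>
    Finset.sum_congr rfl fun i _ => by rw [(hφ i).level_inv u hu g]
  arch_scalar := fun w z hz g =>
    Finset.sum_congr rfl fun i _ => by rw [(hφ i).arch_scalar w z hz g]
  arch_compact := fun w k hk g =>
    Finset.sum_congr rfl fun i _ => by rw [(hφ i).arch_compact w k hk g]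
  cuspidal := isCuspidalFn_sum_h510 hT1 c φ (fun i => (hφ i).cont) (fun i => (hφ i).bdd)
    (fun i => (hφ i).cuspidal)

/-- A finite linear combination of automorphic functions is an automorphic function. -/
theorem isAutFn_sum_h510 (𝔫 : Ideal (𝓞 K)) {n : ℕ} (c : Fin n → ℂ)
    (φ : Fin n → G K → ℂ) (hφ : ∀ i, T2.IsAutFn 𝔫 (φ i)) :
    T2.IsAutFn 𝔫 (fun g => ∑ i, c i * φ i g) where
  cont := continuous_finsetSum _ fun i _ => continuous_const.mul (hφ i).cont
  bdd := by
    choose C hC using fun i => (hφ i).bdd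
    refine ⟨∑ i, ‖c i‖ * C i, fun g => ?_⟩
    calc ‖∑ i, c i * φ i g‖ ≤ ∑ i, ‖c i * φ i g‖ := norm_sum_le _ _
      _ ≤ ∑ i, ‖c i‖ * C i := Finset.sum_le_sum fun i _ => by
          rw [norm_mul]
          exact mul_le_mul_of_nonneg_left (hC i g) (norm_nonneg _)
  left_inv := fun γ g =>
    Finset.sum_congr rfl fun i _ => by rw [(hφ i).left_inv γ g]
  level_inv := fun u hu g =>
    Finset.sum_congr rfl fun i _ => by rw [(hφ i).level_inv u hu g]
  arch_scalar := fun w z hz g =>
    Finset.sum_congr rfl fun i _ => by rw [(hφ i).arch_scalar w z hz g]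
  arch_compact := fun w k hk g =>
    Finset.sum_congr rfl fun i _ => by rw [(hφ i).arch_compact w k hk g]

/-! ## 4. Integrability, linearity of the convolution, expansion of the pairing -/

/-- The integrand of the convolution is integrable. -/
theorem integrable_conv_h510 (F : T2.Frame K) {𝔫 : Ideal (𝓞 K)}
    {f : G K → ℂ} (hf : T2.IsTestFn 𝔫 f) {φ : G K → ℂ} (hφ : Continuous φ) (x : G K) :
    Integrable (fun h => φ (x * h) * f h) F.μ := by
  haveI := F.haar
  have hcont : Continuous fun h => φ (x * h) * f h :=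
    (hφ.comp (continuous_const.mul continuous_id)).mul hf.cont
  exact hcont.integrable_of_hasCompactSupport (hf.cpt.mul_left (f := fun h => φ (x * h)))

/-- The convolution of a continuous function with a test function is continuous. -/
theorem continuous_conv_h510 (hT1 : T1.T1Out K) (F : T2.Frame K) {𝔫 : Ideal (𝓞 K)}
    {f : G K → ℂ} (hf : T2.IsTestFn 𝔫 f) {φ : G K → ℂ} (hφ : Continuous φ) :
    Continuous (T2.conv F f φ) := by
  haveI := F.haar
  haveI : LocallyCompactSpace (G K) := hT1.locComp.2.1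
  haveI : T2Space (G K) := hT1.locComp.2.2.1
  haveI : SecondCountableTopology (G K) := hT1.locComp.2.2.2
  have hu : Continuous (Function.uncurry fun (x : G K) (h : G K) => φ (x * h) * f h) :=
    (hφ.comp (continuous_fst.mul continuous_snd)).mul (hf.cont.comp continuous_snd)
  have h1 : Continuous fun x => ∫ h in tsupport f, φ (x * h) * f h ∂F.μ :=
    continuous_parametric_integral_of_continuous hu hf.cpt
  have h2 : T2.conv F f φ = fun x => ∫ h in tsupport f, φ (x * h) * f h ∂F.μ := by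
    funext x
    unfold T2.conv
    refine (setIntegral_eq_integral_of_forall_compl_eq_zero fun h hh => ?_).symm
    rw [image_eq_zero_of_notMem_tsupport hh, mul_zero]
  rw [h2]
  exact h1

/-- The convolution is linear on finite combinations of continuous functions. -/
theorem conv_sum_h510 (F : T2.Frame K) {𝔫 : Ideal (𝓞 K)}
    {f : G K → ℂ} (hf : T2.IsTestFn 𝔫 f) {n : ℕ} (c : Fin n → ℂ) (φ : Fin n → G K → ℂ)
    (hφ : ∀ i, Continuous (φ i)) (x : G K) :
    T2.conv F f (fun g => ∑ i, c i * φ i g) x = ∑ i, c i * T2.conv F f (φ i) x := by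
  unfold T2.conv
  have h0 : (fun h => (∑ i, c i * φ i (x * h)) * f h)
      = fun h => ∑ i, c i * (φ i (x * h) * f h) := by
    funext h
    rw [Finset.sum_mul]
    exact Finset.sum_congr rfl fun i _ => by ring
  rw [h0, integral_finsetSum _ fun i _ =>
    (integrable_conv_h510 F hf (hφ i) x).const_mul (c i)]
  exact Finset.sum_congr rfl fun i _ => integral_const_mul (c i) _

/-- Products of bounded continuous functions are integrable on the fundamental domain. -/
theorem integrableOn_mul_conj_h510 (F : T2.Frame K) {φ ψ : G K → ℂ} (hφ : Continuous φ)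
    (hψ : Continuous ψ) (hφb : ∃ C : ℝ, ∀ g : G K, ‖φ g‖ ≤ C)
    (hψb : ∃ C : ℝ, ∀ g : G K, ‖ψ g‖ ≤ C) :
    IntegrableOn (fun g => φ g * (starRingEnd ℂ) (ψ g)) F.D F.μ := by
  obtain ⟨C₁, h₁⟩ := hφb
  obtain ⟨C₂, h₂⟩ := hψb
  have hc : Continuous fun g => φ g * (starRingEnd ℂ) (ψ g) :=
    hφ.mul (Complex.continuous_conj.comp hψ)
  refine Measure.integrableOn_of_bounded (M := C₁ * C₂) F.fin.ne hc.aestronglyMeasurable
    (Filter.Eventually.of_forall fun g => ?_)
  rw [norm_mul, RCLike.norm_conj]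
  exact mul_le_mul (h₁ g) (h₂ g) (norm_nonneg _) ((norm_nonneg _).trans (h₁ g))

/-- The square of the norm of a combination of an orthonormal family of bounded continuous
functions. -/
theorem nsq_sum_h510 (F : T2.Frame K) {n : ℕ} (c : Fin n → ℂ) (φ : Fin n → G K → ℂ)
    (hφ : ∀ i, Continuous (φ i)) (hb : ∀ i, ∃ C : ℝ, ∀ g : G K, ‖φ i g‖ ≤ C)
    (horth : ∀ i j, T2.pair F (φ i) (φ j) = if i = j then 1 else 0) :
    T2.nsq F (fun g => ∑ i, c i * φ i g) = ∑ i, ‖c i‖ ^ 2 := by
  have hpair : T2.pair F (fun g => ∑ i, c i * φ i g) (fun g => ∑ i, c i * φ i g)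
      = ∑ i, ∑ j, c i * (starRingEnd ℂ) (c j) * T2.pair F (φ i) (φ j) := by
    unfold T2.pair
    have h0 : (fun g => (∑ i, c i * φ i g) * (starRingEnd ℂ) (∑ i, c i * φ i g))
        = fun g => ∑ i, ∑ j, c i * (starRingEnd ℂ) (c j)
            * (φ i g * (starRingEnd ℂ) (φ j g)) := by
      funext g
      rw [map_sum, Finset.sum_mul_sum]
      refine Finset.sum_congr rfl fun i _ => Finset.sum_congr rfl fun j _ => ?_
      rw [map_mul]
      ring
    rw [h0, integral_finsetSum _ fun i _ => integrable_finsetSum _ fun j _ =>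
      (integrableOn_mul_conj_h510 F (hφ i) (hφ j) (hb i) (hb j)).const_mul _]
    refine Finset.sum_congr rfl fun i _ => ?_
    rw [integral_finsetSum _ fun j _ =>
      (integrableOn_mul_conj_h510 F (hφ i) (hφ j) (hb i) (hb j)).const_mul _]
    exact Finset.sum_congr rfl fun j _ => integral_const_mul _ _
  unfold T2.nsq
  rw [hpair]
  have h1 : (∑ i, ∑ j, c i * (starRingEnd ℂ) (c j) * T2.pair F (φ i) (φ j))
      = ((∑ i, ‖c i‖ ^ 2 : ℝ) : ℂ) := by
    push_cast
    refine Finset.sum_congr rfl fun i _ => ?_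
    rw [Finset.sum_eq_single i]
    · rw [horth i i, if_pos rfl, mul_one, Complex.mul_conj, Complex.normSq_eq_norm_sq]
      push_cast
      rfl
    · intro j _ hj
      rw [horth i j, if_neg (Ne.symm hj), mul_zero]
    · intro h
      exact absurd (Finset.mem_univ i) h
  rw [h1, Complex.ofReal_re]

/-- The square of the norm as a real integral. -/
theorem nsq_eq_integral_h510 (F : T2.Frame K) (ψ : G K → ℂ) :
    T2.nsq F ψ = ∫ g in F.D, ‖ψ g‖ ^ 2 ∂F.μ := by
  unfold T2.nsq T2.pair
  have h0 : (fun g => ψ g * (starRingEnd ℂ) (ψ g)) = fun g => (((‖ψ g‖ ^ 2 : ℝ)) : ℂ) := by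
    funext g
    rw [Complex.mul_conj, Complex.normSq_eq_norm_sq]
  rw [h0, integral_complex_ofReal, Complex.ofReal_re]

/-! ## 5. The leaf -/

/-- **The abstract step**: a pointwise estimate `|R(f)φ(x)| ≤ C₀ ‖φ‖₂` on a class `P` of bounded
continuous functions which is closed under finite linear combinations gives the
Hilbert--Schmidt bound `∑ ‖R(f) φ_i‖² ≤ max(C₀,0)² μ(D)` for orthonormal families in `P`. -/
theorem hs_of_pointwise_h510 (hT1 : T1.T1Out K) {𝔫 : Ideal (𝓞 K)} (F : T2.Frame K)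
    {f : G K → ℂ} (hf : T2.IsTestFn 𝔫 f) (P : (G K → ℂ) → Prop)
    (hPc : ∀ φ, P φ → Continuous φ) (hPb : ∀ φ, P φ → ∃ C : ℝ, ∀ g : G K, ‖φ g‖ ≤ C)
    (hPs : ∀ (n : ℕ) (c : Fin n → ℂ) (φ : Fin n → G K → ℂ), (∀ i, P (φ i)) →
      P (fun g => ∑ i, c i * φ i g))
    (C₀ : ℝ) (hC₀ : ∀ φ : G K → ℂ, P φ →
      ∀ x : G K, ‖T2.conv F f φ x‖ ≤ C₀ * Real.sqrt (T2.nsq F φ))
    (n : ℕ) (φ : Fin n → G K → ℂ) (hφ : ∀ i, P (φ i))
    (horth : ∀ i j, T2.pair F (φ i) (φ j) = if i = j then 1 else 0) :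
    ∑ i, T2.nsq F (T2.conv F f (φ i)) ≤ (max C₀ 0) ^ 2 * (F.μ F.D).toReal := by
  -- Bessel at a point
  have hpt : ∀ x : G K, ∑ i, ‖T2.conv F f (φ i) x‖ ^ 2 ≤ (max C₀ 0) ^ 2 := by
    intro x
    set a : Fin n → ℂ := fun i => T2.conv F f (φ i) x with ha
    refine sum_sq_le_h510 a (max C₀ 0) (le_max_right _ _) ?_
    have h1 := hC₀ _ (hPs n (fun i => (starRingEnd ℂ) (a i)) φ hφ) x
    rw [conv_sum_h510 F hf _ φ (fun i => hPc _ (hφ i)) x,
      nsq_sum_h510 F _ φ (fun i => hPc _ (hφ i)) (fun i => hPb _ (hφ i)) horth] at h1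
    have h2 : (∑ i, ‖(starRingEnd ℂ) (a i)‖ ^ 2) = ∑ i, ‖a i‖ ^ 2 :=
      Finset.sum_congr rfl fun i _ => by rw [RCLike.norm_conj]
    rw [h2] at h1
    exact h1.trans (mul_le_mul_of_nonneg_right (le_max_left _ _) (Real.sqrt_nonneg _))
  -- integrability of the squares
  have hint : ∀ i, IntegrableOn (fun g => ‖T2.conv F f (φ i) g‖ ^ 2) F.D F.μ := by
    intro i
    have hc : Continuous fun g => ‖T2.conv F f (φ i) g‖ ^ 2 :=
      ((continuous_conv_h510 hT1 F hf (hPc _ (hφ i))).norm).pow 2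
    refine Measure.integrableOn_of_bounded
      (M := (C₀ * Real.sqrt (T2.nsq F (φ i))) ^ 2) F.fin.ne hc.aestronglyMeasurable
      (Filter.Eventually.of_forall fun g => ?_)
    rw [Real.norm_of_nonneg (by positivity)]
    exact pow_le_pow_left₀ (norm_nonneg _) (hC₀ _ (hφ i) g) 2
  calc ∑ i, T2.nsq F (T2.conv F f (φ i))
      = ∑ i, ∫ g in F.D, ‖T2.conv F f (φ i) g‖ ^ 2 ∂F.μ :=
        Finset.sum_congr rfl fun i _ => nsq_eq_integral_h510 F _
    _ = ∫ g in F.D, ∑ i, ‖T2.conv F f (φ i) g‖ ^ 2 ∂F.μ :=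
        (integral_finsetSum _ fun i _ => hint i).symm
    _ ≤ ∫ _ in F.D, (max C₀ 0) ^ 2 ∂F.μ :=
        setIntegral_mono (integrable_finsetSum _ fun i _ => hint i)
          (integrableOn_const F.fin.ne) hpt
    _ = (max C₀ 0) ^ 2 * (F.μ F.D).toReal := by
        rw [setIntegral_const, smul_eq_mul, mul_comm]
        rfl

/-- **T2.04**: `GPS ⇒ HSBound` and `GPSKill ⇒ HSKill`. -/
theorem leaf04_h510 (K : Type) [Field K] [NumberField K] : T2.Leaf04 K := by
  intro hT1 𝔫 _
  refine ⟨fun hG F f hf => ?_, fun hG F f hf hkill => ?_⟩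
  · obtain ⟨C₀, hC₀⟩ := hG F f hf
    exact ⟨(max C₀ 0) ^ 2 * (F.μ F.D).toReal, fun n φ hφ horth =>
      hs_of_pointwise_h510 hT1 F hf (T2.IsCuspFn 𝔫) (fun _ h => h.cont) (fun _ h => h.bdd)
        (fun n c φ hφ => isCuspFn_sum_h510 hT1 𝔫 c φ hφ) C₀ hC₀ n φ hφ horth⟩
  · obtain ⟨C₀, hC₀⟩ := hG F f hf hkill
    exact ⟨(max C₀ 0) ^ 2 * (F.μ F.D).toReal, fun n φ hφ horth =>
      hs_of_pointwise_h510 hT1 F hf (T2.IsAutFn 𝔫) (fun _ h => h.cont) (fun _ h => h.bdd)
        (fun n c φ hφ => isAutFn_sum_h510 𝔫 c φ hφ) C₀ hC₀ n φ hφ horth⟩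

end Fermat.Agent.LT.T2.H510

end
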